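import Fermat.Agent.TwExact.Exact

/-!
# Freeness of the `𝔪`-part of the twisted cohomology of `Γ₀(M)`
-/

set_option autoImplicit false

noncomputable section

namespace Fermat.Agent.TwExact

open Matrix.SpecialLinearGroup CongruenceSubgroup IsLocalRing
open scoped MatrixGroups
open TwHecke

section HmFree

variable {M : ℕ} [NeZero M] {R : Type} [CommRing R] [IsLocalRing R] [IsNoetherianRing R]
  [IsAdicComplete (maximalIdeal R) R] {ε : (ZMod M)ˣ →* Rˣ} {S : Set ℕ}
  {θ : PIdx S → ResidueField R}

/-- The standing hypotheses of exactness. -/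
structure Good (M : ℕ) {R : Type} [CommRing R] [IsLocalRing R] (ε : (ZMod M)ˣ →* Rˣ) (S : Set ℕ)
    (θ : PIdx S → ResidueField R) : Prop where
  eps : ε (-1) = 1
  two : IsUnit (2 : R)
  three : IsUnit (3 : R) ∨ ∀ x : SL(2, ℤ), x * (ModularGroup.T * ModularGroup.S) * x⁻¹ ∉ Gamma0 M
  noneis : NonEis M ε S θ

variable {A B C : Type} [AddCommGroup A] [Module R A] [AddCommGroup B] [Module R B]
  [AddCommGroup C] [Module R C]

theorem Good.injective (h : Good M ε S θ) [Module.Finite R A] (f : A →ₗ[R] B)
    (hf : Function.Injective f) : Function.Injective (HmMap M ε S θ f) := by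
  rw [← LinearMap.ker_eq_bot, LinearMap.ker_eq_bot']
  rintro ⟨x, hx⟩ hx0
  exact Subtype.ext (HmMap_injective h.noneis f hf hx (congrArg Subtype.val hx0))

theorem Good.surjective (h : Good M ε S θ) [Module.Finite R A] (f : A →ₗ[R] B)
    (hf : Function.Surjective f) : Function.Surjective (HmMap M ε S θ f) :=
  HmMap_surjective h.eps h.two h.three f hf

omit [NeZero M] [IsNoetherianRing R] [IsAdicComplete (maximalIdeal R) R] in
theorem HmMap_sum {ι : Type*} (s : Finset ι) (f : ι → A →ₗ[R] B) (x : Hm M ε A S θ) :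
    HmMap M ε S θ (∑ i ∈ s, f i) x = ∑ i ∈ s, HmMap M ε S θ (f i) x := by
  classical
  induction s using Finset.induction_on with
  | empty =>
    rw [Finset.sum_empty, Finset.sum_empty]
    have := HmMap_smul M ε S θ (0 : R) (0 : A →ₗ[R] B) x
    rwa [zero_smul, zero_smul] at this
  | insert i s hi ih => rw [Finset.sum_insert hi, Finset.sum_insert hi, HmMap_add, ih]

omit [NeZero M] [IsNoetherianRing R] [IsAdicComplete (maximalIdeal R) R] in
/-- Decomposition of the cohomology of a finite power. -/
theorem HmMap_pi_eq_sum {ι : Type} [Fintype ι] [DecidableEq ι] (X : Hm M ε (ι → R) S θ) :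
    X = ∑ i, HmMap M ε S θ (LinearMap.single R (fun _ : ι => R) i)
      (HmMap M ε S θ (LinearMap.proj i) X) := by
  have h1 : (LinearMap.id : (ι → R) →ₗ[R] (ι → R)) =
      ∑ i, (LinearMap.single R (fun _ : ι => R) i) ∘ₗ (LinearMap.proj i) := by
    refine LinearMap.ext fun v => ?_
    rw [LinearMap.sum_apply]
    funext j
    simp [Finset.sum_apply, Pi.single_apply]
  conv_lhs => rw [← HmMap_id M ε S θ X, h1, HmMap_sum]
  exact Finset.sum_congr rfl fun i _ => HmMap_comp M ε S θ _ _ X

omit [NeZero M] [IsNoetherianRing R] [IsAdicComplete (maximalIdeal R) R] in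
theorem HmMap_toSpanSingleton_smul (r : R) (x : Hm M ε R S θ) :
    HmMap M ε S θ (LinearMap.toSpanSingleton R R r) x = r • x := by
  have : LinearMap.toSpanSingleton R R r = r • (LinearMap.id : R →ₗ[R] R) := by
    refine LinearMap.ext fun a => ?_
    simp [mul_comm]
  rw [this, HmMap_smul, HmMap_id]

omit [NeZero M] [IsNoetherianRing R] [IsAdicComplete (maximalIdeal R) R] in
/-- a linear map from a finite power, on components -/
theorem HmMap_of_components {ι : Type} [Fintype ι] [DecidableEq ι] (φ : (ι → R) →ₗ[R] R)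
    (x : ι → Hm M ε R S θ) :
    HmMap M ε S θ φ (∑ i, HmMap M ε S θ (LinearMap.single R (fun _ : ι => R) i) (x i)) =
      ∑ i, φ (Pi.single i 1) • x i := by
  rw [map_sum]
  refine Finset.sum_congr rfl fun i _ => ?_
  rw [← HmMap_comp, ← HmMap_toSpanSingleton_smul]
  have key : φ ∘ₗ (LinearMap.single R (fun _ : ι => R) i) =
      LinearMap.toSpanSingleton R R (φ (Pi.single i 1)) := by
    refine LinearMap.ext_ring ?_
    rw [LinearMap.comp_apply, LinearMap.toSpanSingleton_apply, one_smul]
    rfl
  rw [key]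

omit [NeZero M] [IsNoetherianRing R] [IsAdicComplete (maximalIdeal R) R] in
theorem HmMap_proj_components {ι : Type} [Fintype ι] [DecidableEq ι]
    (x : ι → Hm M ε R S θ) (j : ι) :
    HmMap M ε S θ (LinearMap.proj j)
      (∑ i, HmMap M ε S θ (LinearMap.single R (fun _ : ι => R) i) (x i)) = x j := by
  rw [HmMap_of_components]
  rw [Finset.sum_eq_single j]
  · simp
  · intro i _ hij
    have : (LinearMap.proj j : (ι → R) →ₗ[R] R) (Pi.single i 1) = 0 := by
      rw [LinearMap.proj_apply, Pi.single_eq_of_ne (Ne.symm hij)]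
    rw [this, zero_smul]
  · intro h; exact absurd (Finset.mem_univ j) h

/-- **Flatness.** -/
theorem Good.flat (h : Good M ε S θ) : Module.Flat R (Hm M ε R S θ) := by
  classical
  rw [Module.Flat.iff_forall_isTrivialRelation]
  intro l f x hfx
  let φ : (Fin l → R) →ₗ[R] R := ∑ i, f i • LinearMap.proj i
  have hφ : ∀ i, φ (Pi.single i 1) = f i := by
    intro i
    simp only [φ, LinearMap.sum_apply, LinearMap.smul_apply, LinearMap.proj_apply, smul_eq_mul]
    rw [Finset.sum_eq_single i]
    · simp
    · intro j _ hj; rw [Pi.single_eq_of_ne hj, mul_zero]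
    · intro h; exact absurd (Finset.mem_univ i) h
  set X : Hm M ε (Fin l → R) S θ :=
    ∑ i, HmMap M ε S θ (LinearMap.single R (fun _ : Fin l => R) i) (x i) with hX
  have h1 : HmMap M ε S θ φ X = 0 := by
    rw [hX, HmMap_of_components]
    simp only [hφ]
    exact hfx
  -- the image ideal
  let I : Submodule R R := LinearMap.range φ
  let φ' : (Fin l → R) →ₗ[R] I := φ.rangeRestrict
  have h2 : HmMap M ε S θ φ' X = 0 := by
    have hfin : Module.Finite R I := inferInstance
    apply h.injective I.subtype (Submodule.injective_subtype I)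
    rw [← HmMap_comp, map_zero]
    exact h1
  -- the kernel
  let K : Submodule R (Fin l → R) := LinearMap.ker φ'
  have h3 : X ∈ LinearMap.range (HmMap M ε S θ K.subtype) := by
    rw [HmMap_exact K.subtype φ' (Submodule.injective_subtype K) φ.surjective_rangeRestrict
      (Submodule.range_subtype K)]
    exact h2
  obtain ⟨Z, hZ⟩ := h3
  obtain ⟨k, q, hq⟩ := Module.Finite.exists_fin' R K
  obtain ⟨Y, hY⟩ := h.surjective q hq Z
  refine ⟨k, fun i j => (q (Pi.single j 1) : Fin l → R) i,
    fun j => HmMap M ε S θ (LinearMap.proj j) Y, fun i => ?_, fun j => ?_⟩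
  · have h4 : x i = HmMap M ε S θ (LinearMap.proj i) X := (HmMap_proj_components x i).symm
    rw [h4, ← hZ, ← hY, ← HmMap_comp, ← HmMap_comp]
    conv_lhs => rw [HmMap_pi_eq_sum Y]
    rw [HmMap_of_components]
    rfl
  · have h5 : φ (q (Pi.single j 1) : Fin l → R) = 0 := by
      have := (q (Pi.single j 1)).2
      rw [LinearMap.mem_ker] at this
      exact congrArg Subtype.val this
    simp only [φ, LinearMap.sum_apply, LinearMap.smul_apply, LinearMap.proj_apply,
      smul_eq_mul] at h5
    exact h5

/-- **Freeness.** -/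
theorem Good.free (h : Good M ε S θ) : Module.Free R (Hm M ε R S θ) := by
  have := h.flat
  have : Module.Finite R (Hm M ε R S θ) := finite_Hm R ε θ
  exact Module.free_of_flat_of_isLocalRing

/-- The kernel of reduction modulo an ideal. -/
theorem Good.ker_mkQ (h : Good M ε S θ) (I : Ideal R) :
    LinearMap.ker (HmMap M ε S θ (Submodule.mkQ I)) = I • (⊤ : Submodule R (Hm M ε R S θ)) := by
  classical
  have hfin : Module.Finite R I := inferInstance
  rw [← HmMap_exact (Submodule.subtype I) (Submodule.mkQ I) (Submodule.injective_subtype I)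
    (Submodule.mkQ_surjective I) (by rw [Submodule.range_subtype, Submodule.ker_mkQ])]
  apply le_antisymm
  · rintro _ ⟨Z, rfl⟩
    obtain ⟨k, q, hq⟩ := Module.Finite.exists_fin' R I
    obtain ⟨Y, rfl⟩ := h.surjective q hq Z
    rw [← HmMap_comp]
    conv => rw [HmMap_pi_eq_sum Y]
    rw [HmMap_of_components]
    refine Submodule.sum_mem _ fun j _ => ?_
    exact Submodule.smul_mem_smul (q (Pi.single j 1)).2 Submodule.mem_top
  · rw [Submodule.smul_le]
    intro r hr x _
    refine ⟨HmMap M ε S θ (LinearMap.toSpanSingleton R I ⟨r, hr⟩) x, ?_⟩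
    rw [← HmMap_comp, ← HmMap_toSpanSingleton_smul]
    rfl

/-- Reduction modulo an ideal. -/
def Good.quotEquiv (h : Good M ε S θ) (I : Ideal R) :
    (Hm M ε R S θ ⧸ (I • (⊤ : Submodule R (Hm M ε R S θ)))) ≃ₗ[R] Hm M ε (R ⧸ I) S θ :=
  (Submodule.quotEquivOfEq _ _ (h.ker_mkQ I).symm).trans
    ((HmMap M ε S θ (Submodule.mkQ I)).quotKerEquivOfSurjective
      (h.surjective _ (Submodule.mkQ_surjective I)))

theorem Good.quotEquiv_mk (h : Good M ε S θ) (I : Ideal R) (x : Hm M ε R S θ) :
    h.quotEquiv I (Submodule.Quotient.mk x) = HmMap M ε S θ (Submodule.mkQ I) x := rfl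

end HmFree

end Fermat.Agent.TwExact
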