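import Mathlib
import Fermat.Prelude.Thm_IsAdicComplete_of_module_finite
import Fermat.Prelude.Thm_Algebra_finite_maximalSpectrum_and_bijective_localization_of_module_finite

/-!
# The `𝔪`-part of a finite module with commuting operators

Let `R` be a local ring, finite over a complete noetherian local ring `𝒪`, `H` an `R`-module finite
over `𝒪`, `T i` commuting endomorphisms of `H`, and `θ i` elements of the residue field. The
`𝔪`-part of `H` is the intersection of the ranges of all polynomials `t` in the `T i` with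
`t(θ) ≠ 0`. It is a direct summand and an exact functor.
-/

set_option autoImplicit false

noncomputable section

namespace Fermat.Agent.TwExact

open IsLocalRing

section CommEval

variable {R : Type*} [CommRing R] {ι : Type*} {A : Type*} [Ring A] [Algebra R A]

theorem isMulComm_adjoin (op : ι → A) (h : ∀ i j, Commute (op i) (op j)) :
    IsMulCommutative (Algebra.adjoin R (Set.range op)) :=
  Algebra.isMulCommutative_adjoin R (by
    rintro _ ⟨i, rfl⟩ _ ⟨j, rfl⟩
    exact h i j)

open scoped IsMulCommutative in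
/-- auxiliary: evaluation into the commutative subalgebra. -/
def cevAux (op : ι → A) (h : ∀ i j, Commute (op i) (op j)) :
    MvPolynomial ι R →ₐ[R] (Algebra.adjoin R (Set.range op) : Subalgebra R A) :=
  haveI := isMulComm_adjoin (R := R) op h
  MvPolynomial.aeval fun i =>
    (⟨op i, Algebra.subset_adjoin (Set.mem_range_self i)⟩ : Algebra.adjoin R (Set.range op))

/-- Evaluation of polynomials at pairwise commuting elements of an algebra. -/
def cev (op : ι → A) (h : ∀ i j, Commute (op i) (op j)) : MvPolynomial ι R →ₐ[R] A :=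
  (Algebra.adjoin R (Set.range op)).val.comp (cevAux op h)

open scoped IsMulCommutative in
@[simp] theorem cev_X (op : ι → A) (h : ∀ i j, Commute (op i) (op j)) (i : ι) :
    cev (R := R) op h (MvPolynomial.X i) = op i := by
  have := isMulComm_adjoin (R := R) op h
  show ((cevAux (R := R) op h (MvPolynomial.X i) : Algebra.adjoin R (Set.range op)) : A) = op i
  rw [cevAux, MvPolynomial.aeval_X]

@[simp] theorem cev_C (op : ι → A) (h : ∀ i j, Commute (op i) (op j)) (r : R) :
    cev (R := R) op h (MvPolynomial.C r) = algebraMap R A r := by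
  rw [← MvPolynomial.algebraMap_eq, AlgHom.commutes]

theorem cev_comm (op : ι → A) (h : ∀ i j, Commute (op i) (op j)) (s t : MvPolynomial ι R) :
    cev op h s * cev op h t = cev op h t * cev op h s := by
  rw [← map_mul, mul_comm, map_mul]

end CommEval

section Modules

variable {R : Type*} [CommRing R] {ι : Type*} {H H' H'' : Type*} [AddCommGroup H] [Module R H]
  [AddCommGroup H'] [Module R H'] [AddCommGroup H''] [Module R H'']

/-- naturality of evaluation. -/
theorem cev_natural {T : ι → Module.End R H} (hT : ∀ i j, Commute (T i) (T j))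
    {T' : ι → Module.End R H'} (hT' : ∀ i j, Commute (T' i) (T' j)) (f : H →ₗ[R] H')
    (hf : ∀ i x, f (T i x) = T' i (f x)) (t : MvPolynomial ι R) (x : H) :
    f (cev T hT t x) = cev T' hT' t (f x) := by
  induction t using MvPolynomial.induction_on generalizing x with
  | C a =>
    rw [cev_C, cev_C, Module.algebraMap_end_apply, Module.algebraMap_end_apply, map_smul]
  | add p q hp hq => rw [map_add, map_add, LinearMap.add_apply, LinearMap.add_apply, map_add, hp, hq]
  | mul_X p i hp =>
    rw [map_mul, map_mul, cev_X, cev_X, Module.End.mul_apply, Module.End.mul_apply, hp, hf]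

/-- an operator commuting with all `T i` commutes with all polynomials. -/
theorem cev_commute {T : ι → Module.End R H} (hT : ∀ i j, Commute (T i) (T j))
    (f : Module.End R H) (hf : ∀ i x, f (T i x) = T i (f x)) (t : MvPolynomial ι R) (x : H) :
    f (cev T hT t x) = cev T hT t (f x) := cev_natural hT hT f hf t x

theorem cev_mul_apply {T : ι → Module.End R H} (hT : ∀ i j, Commute (T i) (T j))
    (s t : MvPolynomial ι R) (x : H) : cev T hT (s * t) x = cev T hT s (cev T hT t x) := by
  rw [map_mul, Module.End.mul_apply]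

end Modules

section MPart

variable {R : Type} [CommRing R] [IsLocalRing R] {ι : Type} (θ : ι → ResidueField R)

/-- evaluation of polynomials at the residual eigensystem. -/
def evk : MvPolynomial ι R →+* ResidueField R := MvPolynomial.eval₂Hom (residue R) θ

@[simp] theorem evk_X (i : ι) : evk θ (MvPolynomial.X i) = θ i := by
  rw [evk, MvPolynomial.eval₂Hom_X']

@[simp] theorem evk_C (r : R) : evk θ (MvPolynomial.C r) = residue R r := by
  rw [evk, MvPolynomial.eval₂Hom_C]

theorem evk_surjective : Function.Surjective (evk (R := R) θ) := fun x => by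
  obtain ⟨r, rfl⟩ := residue_surjective x
  exact ⟨MvPolynomial.C r, evk_C θ r⟩

variable {H H' H'' : Type} [AddCommGroup H] [Module R H]
  [AddCommGroup H'] [Module R H'] [AddCommGroup H''] [Module R H'']

/-- The `𝔪`-part of a module with commuting operators. -/
def mpart (T : ι → Module.End R H) (hT : ∀ i j, Commute (T i) (T j)) : Submodule R H :=
  ⨅ (t : MvPolynomial ι R) (_ : evk θ t ≠ 0), LinearMap.range (cev T hT t)

variable {T : ι → Module.End R H} (hT : ∀ i j, Commute (T i) (T j))
  {T' : ι → Module.End R H'} (hT' : ∀ i j, Commute (T' i) (T' j))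
  {T'' : ι → Module.End R H''} (hT'' : ∀ i j, Commute (T'' i) (T'' j))

variable {θ}

theorem mem_mpart {x : H} : x ∈ mpart θ T hT ↔
    ∀ t : MvPolynomial ι R, evk θ t ≠ 0 → ∃ y, cev T hT t y = x := by
  simp only [mpart, Submodule.mem_iInf, LinearMap.mem_range]

theorem map_mem_mpart (f : H →ₗ[R] H') (hf : ∀ i x, f (T i x) = T' i (f x)) {x : H}
    (hx : x ∈ mpart θ T hT) : f x ∈ mpart θ T' hT' := by
  rw [mem_mpart] at hx ⊢
  intro t ht
  obtain ⟨y, hy⟩ := hx t ht
  exact ⟨f y, by rw [← cev_natural hT hT' f hf, hy]⟩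

theorem mpart_stable (f : Module.End R H) (hf : ∀ i x, f (T i x) = T i (f x)) {x : H}
    (hx : x ∈ mpart θ T hT) : f x ∈ mpart θ T hT := map_mem_mpart hT hT f hf hx

theorem T_mem_mpart (i : ι) {x : H} (hx : x ∈ mpart θ T hT) : T i x ∈ mpart θ T hT :=
  mpart_stable hT (T i) (fun j y => by
    have := congrArg (fun F : Module.End R H => F y) (hT i j).eq
    exact this) hx

theorem cev_mem_mpart (t : MvPolynomial ι R) {x : H} (hx : x ∈ mpart θ T hT) :
    cev T hT t x ∈ mpart θ T hT := by
  refine mpart_stable hT (cev T hT t) (fun j y => ?_) hx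
  rw [← cev_X (R := R) T hT j, ← Module.End.mul_apply, ← Module.End.mul_apply, cev_comm]

variable (𝒪 : Type) [CommRing 𝒪] [IsLocalRing 𝒪] [IsNoetherianRing 𝒪]
  [IsAdicComplete (maximalIdeal 𝒪) 𝒪] [Algebra 𝒪 R]
  [Module 𝒪 H] [IsScalarTower 𝒪 R H] [Module.Finite 𝒪 H]

/-- The quotient of the polynomial ring acting faithfully on `H`. -/
abbrev Eimg (T : ι → Module.End R H) (hT : ∀ i j, Commute (T i) (T j)) : Type :=
  MvPolynomial ι R ⧸ RingHom.ker (cev T hT)

theorem finite_end : Module.Finite 𝒪 (H →ₗ[𝒪] H) := by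
  obtain ⟨n, f, hf⟩ := Module.Finite.exists_fin' 𝒪 H
  have hn : IsNoetherian 𝒪 H := isNoetherian_of_isNoetherianRing_of_finite 𝒪 H
  have h1 : Module.Finite 𝒪 ((Fin n → 𝒪) →ₗ[𝒪] H) := inferInstance
  have h2 : IsNoetherian 𝒪 ((Fin n → 𝒪) →ₗ[𝒪] H) := isNoetherian_of_isNoetherianRing_of_finite 𝒪 _
  refine Module.Finite.of_injective (LinearMap.lcomp 𝒪 H f) ?_
  intro a b hab
  refine LinearMap.ext fun x => ?_
  obtain ⟨y, rfl⟩ := hf x
  exact congrArg (fun g : (Fin n → 𝒪) →ₗ[𝒪] H => g y) hab

theorem finite_Eimg : Module.Finite 𝒪 (Eimg T hT) := by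
  have h1 : Module.Finite 𝒪 (H →ₗ[𝒪] H) := finite_end 𝒪
  have h2 : IsNoetherian 𝒪 (H →ₗ[𝒪] H) := isNoetherian_of_isNoetherianRing_of_finite 𝒪 _
  -- the map `E → End_𝒪 H`
  let g : MvPolynomial ι R →ₗ[𝒪] (H →ₗ[𝒪] H) :=
    { toFun := fun t => (cev T hT t).restrictScalars 𝒪
      map_add' := fun s t => by rw [map_add]; rfl
      map_smul' := fun a t => by
        refine LinearMap.ext fun x => ?_
        rw [RingHom.id_apply, LinearMap.smul_apply, LinearMap.restrictScalars_apply,
          LinearMap.restrictScalars_apply, ← algebraMap_smul R a t, map_smul, LinearMap.smul_apply,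
          algebraMap_smul] }
  have hker : ∀ t, g t = 0 ↔ t ∈ RingHom.ker (cev T hT) := by
    intro t
    rw [RingHom.mem_ker]
    constructor
    · intro h
      refine LinearMap.ext fun x => ?_
      exact congrArg (fun F : H →ₗ[𝒪] H => F x) h
    · intro h
      refine LinearMap.ext fun x => ?_
      show cev T hT t x = 0
      rw [h]; rfl
  let S : Submodule 𝒪 (MvPolynomial ι R) := (RingHom.ker (cev T hT)).restrictScalars 𝒪
  have hS : S ≤ LinearMap.ker g := fun t ht => (hker t).mpr ht
  let gbar : (MvPolynomial ι R ⧸ S) →ₗ[𝒪] (H →ₗ[𝒪] H) := S.liftQ g hS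
  have hinj : Function.Injective gbar := by
    rw [← LinearMap.ker_eq_bot, Submodule.ker_liftQ_eq_bot]
    intro t ht
    exact (hker t).mp ht
  have h3 : Module.Finite 𝒪 (MvPolynomial ι R ⧸ S) := Module.Finite.of_injective gbar hinj
  let e : (MvPolynomial ι R ⧸ S) ≃ₗ[𝒪] Eimg T hT := Submodule.Quotient.restrictScalarsEquiv 𝒪 _
  exact Module.Finite.equiv e

include 𝒪 in
/-- **Existence of the idempotent.** -/
theorem exists_idem : ∃ e : MvPolynomial ι R, evk θ e = 1 ∧
    cev T hT (e * e) = cev T hT e ∧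
    ∀ s : MvPolynomial ι R, evk θ s ≠ 0 → ∃ u, cev T hT (s * u) = cev T hT e := by
  classical
  have hfin := finite_Eimg hT 𝒪
  by_cases hcase : ∃ t : MvPolynomial ι R, cev T hT t = 0 ∧ evk θ t ≠ 0
  · obtain ⟨t, ht0, ht1⟩ := hcase
    obtain ⟨r, hr⟩ := evk_surjective θ (evk θ t)⁻¹
    refine ⟨t * r, by rw [map_mul, hr, mul_inv_cancel₀ ht1], ?_, fun s _ => ⟨0, ?_⟩⟩
    · simp only [map_mul, ht0, zero_mul]
    · rw [mul_zero, map_zero, map_mul, ht0, zero_mul]
  · push Not at hcase
    -- the character of `E`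
    let π : MvPolynomial ι R →+* Eimg T hT := Ideal.Quotient.mk _
    let χ : Eimg T hT →+* ResidueField R := Ideal.Quotient.lift _ (evk θ) (fun a ha => hcase a ha)
    have hχπ : ∀ t, χ (π t) = evk θ t := fun t => Ideal.Quotient.lift_mk _ _ _
    have hχ : Function.Surjective χ := fun x => by
      obtain ⟨t, rfl⟩ := evk_surjective θ x
      exact ⟨π t, hχπ t⟩
    have hmax : (RingHom.ker χ).IsMaximal := RingHom.ker_isMaximal_of_surjective χ hχ
    let I : MaximalSpectrum (Eimg T hT) := ⟨RingHom.ker χ, hmax⟩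
    obtain ⟨-, hbij, -, -⟩ :=
      Algebra.finite_maximalSpectrum_and_bijective_localization_of_module_finite
        (𝒪 := 𝒪) (Eimg T hT)
    set Φ := RingHom.pi fun J : MaximalSpectrum (Eimg T hT) =>
        algebraMap (Eimg T hT) (Localization.AtPrime J.asIdeal) with hΦ
    obtain ⟨ebar, hebar⟩ := hbij.2 (Pi.single I 1)
    obtain ⟨e0, he0⟩ := Ideal.Quotient.mk_surjective ebar
    have hπ : ∀ s t, π s = π t → cev T hT s = cev T hT t := by
      intro s t h
      have h1 : s - t ∈ RingHom.ker (cev T hT) := Ideal.Quotient.eq.mp h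
      rw [RingHom.mem_ker, map_sub, sub_eq_zero] at h1
      exact h1
    have hidem : ebar * ebar = ebar := by
      apply hbij.1
      rw [map_mul]
      have hebar' : Φ ebar = Pi.single I 1 := hebar
      rw [hebar', ← Pi.single_mul, one_mul]
    have hnot : χ ebar ≠ 0 := by
      intro h
      have h1 : ebar ∈ I.asIdeal := h
      have h2 : (algebraMap (Eimg T hT) (Localization.AtPrime I.asIdeal)) ebar = 1 := by
        have := congrFun hebar I
        rw [Pi.single_eq_same] at this
        exact this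
      have h3 := (IsLocalization.AtPrime.isUnit_to_map_iff (Localization.AtPrime I.asIdeal)
        I.asIdeal ebar).mp (by rw [h2]; exact isUnit_one)
      exact h3 h1
    have he1 : evk θ e0 = 1 := by
      have h1 : χ ebar * χ ebar = χ ebar := by rw [← map_mul, hidem]
      have h2 : χ ebar = 1 := mul_left_cancel₀ hnot (by rw [h1, mul_one])
      rw [← hχπ]
      show χ (Ideal.Quotient.mk _ e0) = 1
      rw [he0, h2]
    refine ⟨e0, he1, ?_, ?_⟩
    · apply hπ
      show Ideal.Quotient.mk _ (e0 * e0) = Ideal.Quotient.mk _ e0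
      rw [map_mul, he0, hidem]
    · intro s hs
      have hs' : π s ∉ I.asIdeal := by
        intro h
        apply hs
        rw [← hχπ]
        exact h
      have hu : IsUnit ((algebraMap (Eimg T hT) (Localization.AtPrime I.asIdeal)) (π s)) :=
        (IsLocalization.AtPrime.isUnit_to_map_iff (Localization.AtPrime I.asIdeal)
          I.asIdeal (π s)).mpr hs'
      obtain ⟨v, hv⟩ := hu.exists_right_inv
      obtain ⟨ubar, hubar⟩ := hbij.2 (Pi.single I v)
      obtain ⟨u, hu'⟩ := Ideal.Quotient.mk_surjective ubar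
      refine ⟨u, ?_⟩
      apply hπ
      show π (s * u) = π e0
      have h5 : π u = ubar := hu'
      have h6 : π e0 = ebar := he0
      rw [map_mul, h5, h6]
      apply hbij.1
      have hebar' : Φ ebar = Pi.single I 1 := hebar
      have hubar' : Φ ubar = Pi.single I v := hubar
      change Φ (π s * ubar) = Φ ebar
      rw [map_mul, hebar', hubar']
      funext J
      rw [Pi.mul_apply]
      by_cases hJ : J = I
      · subst hJ
        rw [Pi.single_eq_same, Pi.single_eq_same]
        exact hv
      · rw [Pi.single_eq_of_ne hJ, Pi.single_eq_of_ne hJ, mul_zero]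

/-- `e` acts as the projector onto the `𝔪`-part. -/
structure IsIdem (θ : ι → ResidueField R) (T : ι → Module.End R H)
    (hT : ∀ i j, Commute (T i) (T j)) (e : MvPolynomial ι R) : Prop where
  evk_eq : evk θ e = 1
  idem : cev T hT (e * e) = cev T hT e
  inv : ∀ s : MvPolynomial ι R, evk θ s ≠ 0 → ∃ u, cev T hT (s * u) = cev T hT e

include 𝒪 in
theorem exists_isIdem : ∃ e : MvPolynomial ι R, IsIdem θ T hT e := by
  obtain ⟨e, h1, h2, h3⟩ := exists_idem (θ := θ) hT 𝒪
  exact ⟨e, h1, h2, h3⟩

variable {hT}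

section Idem

omit [Module 𝒪 H] [IsScalarTower 𝒪 R H] [Module.Finite 𝒪 H] [IsLocalRing 𝒪]
  [IsNoetherianRing 𝒪] [IsAdicComplete (maximalIdeal 𝒪) 𝒪] [Algebra 𝒪 R] [CommRing 𝒪]

variable {e : MvPolynomial ι R}

theorem IsIdem.apply_apply (he : IsIdem θ T hT e) (x : H) :
    cev T hT e (cev T hT e x) = cev T hT e x := by
  rw [← cev_mul_apply, he.idem]

theorem IsIdem.mem_iff (he : IsIdem θ T hT e) {x : H} : x ∈ mpart θ T hT ↔ cev T hT e x = x := by
  constructor
  · intro hx
    obtain ⟨y, rfl⟩ := (mem_mpart hT).mp hx e (by rw [he.evk_eq]; exact one_ne_zero)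
    exact he.apply_apply y
  · intro hx
    rw [mem_mpart]
    intro s hs
    obtain ⟨u, hu⟩ := he.inv s hs
    refine ⟨cev T hT u x, ?_⟩
    rw [← cev_mul_apply, hu, hx]

theorem IsIdem.apply_mem (he : IsIdem θ T hT e) (x : H) : cev T hT e x ∈ mpart θ T hT :=
  he.mem_iff.mpr (he.apply_apply x)

theorem IsIdem.range_eq (he : IsIdem θ T hT e) : LinearMap.range (cev T hT e) = mpart θ T hT := by
  apply le_antisymm
  · rintro _ ⟨x, rfl⟩
    exact he.apply_mem x
  · intro x hx
    exact ⟨x, he.mem_iff.mp hx⟩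

/-- polynomials outside `𝔪` act injectively on the `𝔪`-part. -/
theorem IsIdem.eq_zero (he : IsIdem θ T hT e) {x : H} (hx : x ∈ mpart θ T hT)
    {s : MvPolynomial ι R} (hs : evk θ s ≠ 0) (h : cev T hT s x = 0) : x = 0 := by
  obtain ⟨u, hu⟩ := he.inv s hs
  rw [← he.mem_iff.mp hx, ← hu, mul_comm, cev_mul_apply, h, map_zero]

/-- polynomials outside `𝔪` act surjectively on the `𝔪`-part. -/
theorem IsIdem.exists_preimage (he : IsIdem θ T hT e) {x : H} (hx : x ∈ mpart θ T hT)
    {s : MvPolynomial ι R} (hs : evk θ s ≠ 0) : ∃ y ∈ mpart θ T hT, cev T hT s y = x := by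
  obtain ⟨u, hu⟩ := he.inv s hs
  refine ⟨cev T hT u x, cev_mem_mpart hT u hx, ?_⟩
  rw [← cev_mul_apply, hu, he.mem_iff.mp hx]

/-- An eigenvector for `T i` with eigenvalue incompatible with `θ i` is not in the `𝔪`-part. -/
theorem IsIdem.eq_zero_of_eigen (he : IsIdem θ T hT e) {x : H} (hx : x ∈ mpart θ T hT)
    {i : ι} {d : R} (hd : θ i ≠ residue R d) (h : T i x = d • x) : x = 0 := by
  refine he.eq_zero hx (s := MvPolynomial.X i - MvPolynomial.C d) ?_ ?_
  · rw [map_sub, evk_X, evk_C]
    exact sub_ne_zero.mpr hd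
  · rw [map_sub, cev_X, cev_C, LinearMap.sub_apply, Module.algebraMap_end_apply, h, sub_self]

/-- The `𝔪`-part is right exact. -/
theorem IsIdem.exists_lift (he : IsIdem θ T hT e) (f : H →ₗ[R] H')
    (hf : ∀ i x, f (T i x) = T' i (f x)) (hsurj : Function.Surjective f) {y : H'}
    (hy : y ∈ mpart θ T' hT') : ∃ x ∈ mpart θ T hT, f x = y := by
  obtain ⟨y', rfl⟩ := (mem_mpart hT').mp hy e (by rw [he.evk_eq]; exact one_ne_zero)
  obtain ⟨x, rfl⟩ := hsurj y'
  exact ⟨cev T hT e x, he.apply_mem x, cev_natural hT hT' f hf e x⟩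

/-- The `𝔪`-part is exact in the middle. -/
theorem IsIdem.exists_of_exact {e' : MvPolynomial ι R} (he : IsIdem θ T hT e)
    (he' : IsIdem θ T' hT' e') (g : H' →ₗ[R] H) (hg : ∀ i x, g (T' i x) = T i (g x))
    {x : H} (hx : x ∈ mpart θ T hT) (hxg : x ∈ LinearMap.range g) :
    ∃ z ∈ mpart θ T' hT', g z = x := by
  obtain ⟨z, rfl⟩ := hxg
  obtain ⟨u, hu⟩ := he.inv e' (by rw [he'.evk_eq]; exact one_ne_zero)
  refine ⟨cev T' hT' e' (cev T' hT' u z), he'.apply_mem _, ?_⟩
  rw [← cev_mul_apply, cev_natural hT' hT g hg, hu, he.mem_iff.mp hx]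

end Idem

/-- The `𝔪`-part is a direct summand; it is finite. -/
theorem finite_mpart (hT : ∀ i j, Commute (T i) (T j)) : Module.Finite 𝒪 (mpart θ T hT) := by
  have : IsNoetherian 𝒪 H := isNoetherian_of_isNoetherianRing_of_finite 𝒪 H
  have h1 : Module.Finite 𝒪 ((mpart θ T hT).restrictScalars 𝒪) := inferInstance
  exact h1

end MPart

end Fermat.Agent.TwExact
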