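import Fermat.Agent.TwExact.Free

/-!
# No elements of order three; change of the coefficient ring
-/

set_option autoImplicit false
set_option linter.unusedSectionVars false

noncomputable section

namespace Fermat.Agent.TwExact

open Matrix.SpecialLinearGroup CongruenceSubgroup IsLocalRing
open scoped MatrixGroups
open TwHecke

section Three

theorem trace_conj_TS (x : SL(2, ℤ)) :
    (x * (ModularGroup.T * ModularGroup.S) * x⁻¹ : SL(2, ℤ)) 0 0 +
      (x * (ModularGroup.T * ModularGroup.S) * x⁻¹ : SL(2, ℤ)) 1 1 = 1 := by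
  have h1 : Matrix.trace ((x * (ModularGroup.T * ModularGroup.S) * x⁻¹ : SL(2, ℤ)) :
      Matrix (Fin 2) (Fin 2) ℤ) = 1 := by
    rw [Matrix.SpecialLinearGroup.coe_mul, Matrix.SpecialLinearGroup.coe_mul,
      Matrix.trace_mul_comm, ← Matrix.mul_assoc, ← Matrix.SpecialLinearGroup.coe_mul,
      inv_mul_cancel, Matrix.SpecialLinearGroup.coe_one, Matrix.one_mul]
    rw [Matrix.SpecialLinearGroup.coe_mul, ModularGroup.coe_T, ModularGroup.coe_S]
    simp [Matrix.trace_fin_two]
  rw [Matrix.trace_fin_two] at h1
  exact h1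

/-- If `M` has a prime factor `r ≡ 2 mod 3` then `Γ₀(M)` contains no element of order `3` or `6`. -/
theorem no_order_three {M r : ℕ} (hr : r.Prime) (hrM : r ∣ M) (h3 : r % 3 = 2) (x : SL(2, ℤ)) :
    x * (ModularGroup.T * ModularGroup.S) * x⁻¹ ∉ Gamma0 M := by
  intro hx
  set g := x * (ModularGroup.T * ModularGroup.S) * x⁻¹ with hg
  have htr : g 0 0 + g 1 1 = 1 := trace_conj_TS x
  have hdet : g 0 0 * g 1 1 - g 0 1 * g 1 0 = 1 := by
    have := g.det_coe
    rwa [Matrix.det_fin_two] at this
  have hc : (r : ℤ) ∣ g 1 0 := by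
    rw [Gamma0_mem] at hx
    have := (ZMod.intCast_zmod_eq_zero_iff_dvd _ _).mp hx
    exact (Int.natCast_dvd_natCast.mpr hrM).trans this
  have hfact : Fact r.Prime := ⟨hr⟩
  set a : ZMod r := ((g 0 0 : ℤ) : ZMod r) with ha
  have h1 : a ^ 2 - a + 1 = 0 := by
    have hc' : ((g 1 0 : ℤ) : ZMod r) = 0 := (ZMod.intCast_zmod_eq_zero_iff_dvd _ _).mpr hc
    have e1 : g 1 1 = 1 - g 0 0 := by linarith
    have e2 := congrArg (Int.cast : ℤ → ZMod r) hdet
    rw [e1] at e2
    push_cast at e2
    rw [hc', mul_zero, sub_zero, ← ha] at e2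
    linear_combination -e2
  -- `a ^ 3 = -1`, `a ≠ -1` unless `r = 3`
  have h2 : a ^ 3 = -1 := by
    have : (a + 1) * (a ^ 2 - a + 1) = 0 := by rw [h1, mul_zero]
    linear_combination this
  have ha0 : a ≠ 0 := by
    intro h
    rw [h] at h2
    have : (1 : ZMod r) = 0 := by
      have h4 : (0 : ZMod r) ^ 3 = 0 := by norm_num
      rw [h4] at h2
      linear_combination h2
    exact one_ne_zero this
  have hr2 : 2 ≤ r := hr.two_le
  -- Fermat: a^(r-1) = 1
  have h5 : a ^ (r - 1) = 1 := ZMod.pow_card_sub_one_eq_one ha0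
  -- write r - 1 = 3 m + 1
  obtain ⟨m, hm⟩ : ∃ m, r - 1 = 3 * m + 1 := ⟨r / 3, by omega⟩
  rw [hm, pow_add, pow_mul, h2, pow_one] at h5
  -- a = ± 1
  have h6 : a = 1 ∨ a = -1 := by
    rcases neg_one_pow_eq_or (ZMod r) m with h | h
    · rw [h, one_mul] at h5
      exact Or.inl h5
    · rw [h] at h5
      right
      linear_combination -h5
  rcases h6 with h | h
  · rw [h] at h1
    have : (1 : ZMod r) = 0 := by linear_combination h1
    exact one_ne_zero this
  · rw [h] at h1
    have h7 : ((3 : ℕ) : ZMod r) = 0 := by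
      push_cast
      linear_combination h1
    rw [ZMod.natCast_eq_zero_iff] at h7
    have := (Nat.prime_dvd_prime_iff_eq hr Nat.prime_three).mp h7
    omega

end Three

/-! ### Change of rings -/

section Change

variable {Γ : Type*} [Group Γ] {R R' : Type*} [CommRing R] [CommRing R'] [Algebra R R']
variable (ε : Γ →* Rˣ) (ε' : Γ →* R'ˣ) (hε : ∀ g, ((ε' g : R'ˣ) : R') = algebraMap R R' (ε g))
variable (A : Type*) [AddCommGroup A] [Module R A] [Module R' A] [IsScalarTower R R' A]

include hε in
theorem eps_smul (g : Γ) (a : A) : ((ε' g : R'ˣ) : R') • a = ((ε g : Rˣ) : R) • a := by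
  rw [hε, algebraMap_smul]

/-- The cocycles do not depend on the ring. -/
def Z1Change : Z1 ε A ≃ₗ[R] Z1 ε' A where
  toFun c := ⟨c.1, fun g h => by rw [eps_smul ε ε' hε]; exact c.2 g h⟩
  invFun c := ⟨c.1, fun g h => by rw [← eps_smul ε ε' hε]; exact c.2 g h⟩
  map_add' _ _ := rfl
  map_smul' _ _ := rfl
  left_inv _ := rfl
  right_inv _ := rfl

@[simp] theorem Z1Change_apply (c : Z1 ε A) (g : Γ) : Z1Change ε ε' hε A c g = c g := rfl

theorem Z1Change_cobd (a : A) : Z1Change ε ε' hε A (cobd ε A a) = cobd ε' A a := by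
  ext g
  rw [Z1Change_apply, cobd_apply, cobd_apply, eps_smul ε ε' hε]

/-- The cohomology does not depend on the ring. -/
def H1Change : H1 ε A ≃ₗ[R] H1 ε' A where
  toFun := Quotient.map' (Z1Change ε ε' hε A) (by
    intro c d h
    rw [Submodule.quotientRel_def] at h ⊢
    obtain ⟨a, ha⟩ := h
    exact ⟨a, by rw [← Z1Change_cobd ε ε' hε, ha, map_sub]⟩)
  invFun := Quotient.map' (Z1Change ε ε' hε A).symm (by
    intro c d h
    rw [Submodule.quotientRel_def] at h ⊢
    obtain ⟨a, ha⟩ := h
    exact ⟨a, by
      rw [← map_sub, ← ha, ← Z1Change_cobd ε ε' hε, LinearEquiv.symm_apply_apply]⟩)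
  map_add' x y := by
    induction x using H1.ind with
    | h c =>
      induction y using H1.ind with
      | h d => rfl
  map_smul' r x := by
    induction x using H1.ind with
    | h c => rfl
  left_inv x := by
    induction x using H1.ind with
    | h c => rfl
  right_inv x := by
    induction x using H1.ind with
    | h c => rfl

@[simp] theorem H1Change_mk (c : Z1 ε A) :
    H1Change ε ε' hε A (H1.mk c) = H1.mk (Z1Change ε ε' hε A c) := rfl

@[simp] theorem H1Change_symm_mk (c : Z1 ε' A) :
    (H1Change ε ε' hε A).symm (H1.mk c) = H1.mk ((Z1Change ε ε' hε A).symm c) := rfl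

end Change

section ChangeHecke

variable (M : ℕ) {R R' : Type*} [CommRing R] [CommRing R'] [Algebra R R']
variable (ε : (ZMod M)ˣ →* Rˣ)
variable (A : Type*) [AddCommGroup A] [Module R A] [Module R' A] [IsScalarTower R R' A]

/-- base change of the character -/
abbrev epsMap (R' : Type*) [CommRing R'] [Algebra R R'] : (ZMod M)ˣ →* R'ˣ :=
  (Units.map (algebraMap R R' : R →* R')).comp ε

theorem chr_epsMap (g : Gamma0 M) :
    ((chr M (epsMap M ε R') g : R'ˣ) : R') = algebraMap R R' (chr M ε g) := rfl

/-- `H¹(Γ₀(M), A(ε))` does not depend on the ring of scalars. -/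
def HMChange : HM M ε A ≃ₗ[R] HM M (epsMap M ε R') A :=
  H1Change (chr M ε) (chr M (epsMap M ε R')) (chr_epsMap M ε) A

theorem HMChange_mk (c : ZM M ε A) : HMChange (R' := R') M ε A (H1.mk c) =
    H1.mk (Z1Change (chr M ε) (chr M (epsMap M ε R')) (chr_epsMap M ε) A c) := rfl

theorem HMChange_smul (a : R) (x : HM M ε A) : HMChange (R' := R') M ε A (a • x) =
    algebraMap R R' a • HMChange (R' := R') M ε A x := by
  induction x using H1.ind with
  | h c =>
    rw [← H1.mk_smul, HMChange_mk, HMChange_mk, ← H1.mk_smul]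
    congr 1
    ext g
    rw [Z1.smul_apply, Z1Change_apply, Z1Change_apply, algebraMap_smul]
    rfl

theorem heckeZ_change (p : ℕ) [Fact p.Prime] (c : ZM M ε A) :
    heckeZ M p (epsMap M ε R') A (Z1Change (chr M ε) (chr M (epsMap M ε R')) (chr_epsMap M ε) A c) =
      Z1Change (chr M ε) (chr M (epsMap M ε R')) (chr_epsMap M ε) A (heckeZ M p ε A c) := by
  ext g
  rw [heckeZ_apply, Z1Change_apply, heckeZ_apply]
  refine Finset.sum_congr rfl fun x _ => ?_
  rw [Z1Change_apply]
  have : wt (epsMap M ε R') (hu M p x) = algebraMap R R' (wt ε (hu M p x)) := by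
    simp only [wt, epsMap, MonoidHom.comp_apply]
    rw [← map_inv]
    rfl
  rw [this, algebraMap_smul]

theorem heckeP_change (ℓ : Nat.Primes) (x : HM M ε A) :
    heckeP M (epsMap M ε R') A ℓ (HMChange M ε A x) = HMChange M ε A (heckeP M ε A ℓ x) := by
  have : Fact (ℓ : ℕ).Prime := ⟨ℓ.2⟩
  induction x using H1.ind with
  | h c =>
    show heckeH M ℓ (epsMap M ε R') A (H1.mk _) = HMChange M ε A (heckeH M ℓ ε A (H1.mk c))
    rw [heckeH_mk, heckeH_mk, HMChange_mk, heckeZ_change]

end ChangeHecke

section Semi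

variable {R R' : Type*} [CommRing R] [CommRing R'] (φ : R →+* R') {ι : Type*}
  {H H' : Type*} [AddCommGroup H] [Module R H] [AddCommGroup H'] [Module R' H']

/-- semilinear naturality of evaluation. -/
theorem cev_semilinear {T : ι → Module.End R H} (hT : ∀ i j, Commute (T i) (T j))
    {T' : ι → Module.End R' H'} (hT' : ∀ i j, Commute (T' i) (T' j)) (f : H →+ H')
    (hf : ∀ r x, f (r • x) = φ r • f x)
    (hfT : ∀ i x, f (T i x) = T' i (f x)) (t : MvPolynomial ι R) (x : H) :
    f (cev T hT t x) = cev T' hT' (MvPolynomial.map φ t) (f x) := by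
  induction t using MvPolynomial.induction_on generalizing x with
  | C a =>
    rw [MvPolynomial.map_C, cev_C, cev_C, Module.algebraMap_end_apply,
      Module.algebraMap_end_apply, hf]
  | add p q hp hq =>
    rw [(MvPolynomial.map φ).map_add, map_add, map_add, LinearMap.add_apply, LinearMap.add_apply,
      map_add, hp, hq]
  | mul_X p i hp =>
    rw [(MvPolynomial.map φ).map_mul, map_mul, map_mul, MvPolynomial.map_X, cev_X, cev_X,
      Module.End.mul_apply, Module.End.mul_apply, hp, hfT]

end Semi

section ChangeHm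

variable (M : ℕ) {R R' : Type} [CommRing R] [IsLocalRing R] [CommRing R'] [IsLocalRing R']
  [Algebra R R'] [IsLocalHom (algebraMap R R')]
variable (ε : (ZMod M)ˣ →* Rˣ) (S : Set ℕ) (θ : PIdx S → ResidueField R)
variable (A : Type) [AddCommGroup A] [Module R A] [Module R' A] [IsScalarTower R R' A]

/-- base change of the residual eigensystem -/
abbrev thMap (R' : Type) [CommRing R'] [IsLocalRing R'] [Algebra R R']
    [IsLocalHom (algebraMap R R')] {ι : Type} (θ : ι → ResidueField R) : ι → ResidueField R' :=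
  fun ℓ => ResidueField.map (algebraMap R R') (θ ℓ)

theorem evk_map {ι : Type} (θ : ι → ResidueField R) (t : MvPolynomial ι R) :
    evk (thMap R' θ) (MvPolynomial.map (algebraMap R R') t) =
      ResidueField.map (algebraMap R R') (evk θ t) := by
  induction t using MvPolynomial.induction_on with
  | C a => rw [MvPolynomial.map_C, evk_C, evk_C, ResidueField.map_residue]
  | add p q hp hq => rw [map_add, map_add, map_add, map_add, hp, hq]
  | mul_X p i hp => rw [map_mul, map_mul, map_mul, map_mul, hp, MvPolynomial.map_X, evk_X, evk_X]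

variable {M S} in
theorem cev_change (t : MvPolynomial (PIdx S) R) (x : HM M ε A) :
    HMChange (R' := R') M ε A (cev (hop M ε A S) (hop_commute M ε A S) t x) =
      cev (hop M (epsMap M ε R') A S) (hop_commute M (epsMap M ε R') A S)
        (MvPolynomial.map (algebraMap R R') t) (HMChange M ε A x) :=
  cev_semilinear (algebraMap R R') (hop_commute M ε A S) (hop_commute M (epsMap M ε R') A S)
    (HMChange (R' := R') M ε A).toLinearMap.toAddMonoidHom (HMChange_smul M ε A)
    (fun i x => (heckeP_change M ε A i.1 x).symm) t x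

/-- For a surjective change of rings the `𝔪`-parts agree. -/
theorem mem_Hm_change (hsurj : Function.Surjective (algebraMap R R')) (x : HM M ε A) :
    HMChange M ε A x ∈ Hm M (epsMap M ε R') A S (thMap R' θ) ↔ x ∈ Hm M ε A S θ := by
  rw [Hm, Hm, mem_mpart, mem_mpart]
  constructor
  · intro h t ht
    obtain ⟨y, hy⟩ := h (MvPolynomial.map (algebraMap R R') t) (by
      rw [evk_map]
      exact fun h0 => ht ((map_eq_zero _).mp h0))
    obtain ⟨y, rfl⟩ := (HMChange (R' := R') M ε A).surjective y
    refine ⟨y, (HMChange (R' := R') M ε A).injective ?_⟩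
    rw [cev_change, hy]
  · intro h t ht
    obtain ⟨t, rfl⟩ := MvPolynomial.map_surjective _ hsurj t
    obtain ⟨y, hy⟩ := h t (by
      intro h0
      apply ht
      rw [evk_map, h0, map_zero])
    refine ⟨HMChange M ε A y, ?_⟩
    rw [← cev_change, hy]

/-- For a surjective change of rings the `𝔪`-parts agree. -/
def HmChange (hsurj : Function.Surjective (algebraMap R R')) :
    Hm M ε A S θ ≃ₗ[R] (Hm M (epsMap M ε R') A S (thMap R' θ)).restrictScalars R where
  toFun x := ⟨HMChange M ε A x.1, (mem_Hm_change M ε S θ A hsurj x.1).mpr x.2⟩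
  invFun y := ⟨(HMChange M ε A).symm y.1, (mem_Hm_change (R' := R') M ε S θ A hsurj _).mp (by
    rw [LinearEquiv.apply_symm_apply]; exact y.2)⟩
  map_add' x y := Subtype.ext (map_add _ _ _)
  map_smul' r x := Subtype.ext (map_smul _ _ _)
  left_inv x := Subtype.ext (LinearEquiv.symm_apply_apply _ _)
  right_inv x := Subtype.ext (LinearEquiv.apply_symm_apply _ _)

@[simp] theorem coe_HmChange (hsurj : Function.Surjective (algebraMap R R')) (x : Hm M ε A S θ) :
    (HmChange (R' := R') M ε S θ A hsurj x : HM M (epsMap M ε R') A) = HMChange M ε A x.1 := rfl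

end ChangeHm

section Rank

instance isLocalHom_algebraMap_residueField (R : Type*) [CommRing R] [IsLocalRing R] :
    IsLocalHom (algebraMap R (ResidueField R)) := (inferInstance : IsLocalHom (residue R))

open scoped TensorProduct in
theorem finrank_eq_of_residue {R : Type*} [CommRing R] [IsLocalRing R] {N V : Type*}
    [AddCommGroup N] [Module R N] [Module.Free R N] [Module.Finite R N] [AddCommGroup V]
    [Module R V] [Module (ResidueField R) V] [IsScalarTower R (ResidueField R) V]
    (e : (N ⧸ (maximalIdeal R • (⊤ : Submodule R N))) ≃ₗ[R] V) :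
    Module.finrank R N = Module.finrank (ResidueField R) V := by
  have e1 : (ResidueField R ⊗[R] N) ≃ₗ[R] (N ⧸ (maximalIdeal R • (⊤ : Submodule R N))) :=
    TensorProduct.quotTensorEquivQuotSMul _ _
  have e2 := (e1.trans e).extendScalarsOfSurjective (S := ResidueField R) residue_surjective
  rw [← e2.finrank_eq]
  exact (Module.finrank_baseChange (R := ResidueField R) (S := R) (M' := N)).symm

variable {M : ℕ} [NeZero M] {R : Type} [CommRing R] [IsLocalRing R] [IsNoetherianRing R]
  [IsAdicComplete (maximalIdeal R) R] {ε : (ZMod M)ˣ →* Rˣ} {S : Set ℕ}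
  {θ : PIdx S → ResidueField R}

/-- Reduction modulo the maximal ideal: linear equivalence over `R`. -/
def Good.residueEquiv (h : Good M ε S θ) :
    (Hm M ε R S θ ⧸ (maximalIdeal R • (⊤ : Submodule R (Hm M ε R S θ)))) ≃ₗ[R]
      Hm M (epsMap M ε (ResidueField R)) (ResidueField R) S (thMap (ResidueField R) θ) :=
  (h.quotEquiv (maximalIdeal R)).trans
    (HmChange (R' := ResidueField R) M ε S θ (ResidueField R) residue_surjective)

/-- The rank is the dimension of the residual cohomology. -/
theorem Good.finrank_eq (h : Good M ε S θ) : Module.finrank R (Hm M ε R S θ) =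
    Module.finrank (ResidueField R)
      (Hm M (epsMap M ε (ResidueField R)) (ResidueField R) S (thMap (ResidueField R) θ)) := by
  have := h.free
  have : Module.Finite R (Hm M ε R S θ) := finite_Hm R ε θ
  have : IsScalarTower R (ResidueField R)
    (Hm M (epsMap M ε (ResidueField R)) (ResidueField R) S (thMap (ResidueField R) θ)) := by
    refine ⟨fun a b x => Subtype.ext ?_⟩
    obtain ⟨x, hx⟩ := x
    change (a • b) • x = a • (b • x)
    induction x using H1.ind with
    | h c =>
      rw [← H1.mk_smul, ← H1.mk_smul]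
      refine congrArg H1.mk (Z1.ext fun g => ?_)
      exact smul_assoc a b (c g)
  exact finrank_eq_of_residue h.residueEquiv

end Rank

end Fermat.Agent.TwExact
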