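import Fermat.Agent.S16.Farey
import Fermat.Agent.TwHecke.Basic

/-!
# Lifting crossed homomorphisms along surjections of coefficients

`Γ ≤ SL(2, ℤ)` contains `-1`, `ε : Γ →* Rˣ` with `ε (-1) = 1`, `2` is invertible in `R`, and either
`3` is invertible in `R` or `Γ` has no elements of order three.
-/

set_option autoImplicit false

noncomputable section

namespace Fermat.Agent.TwExact

open ModularGroup Fermat.Agent.TwHecke Fermat.Agent.S16.Farey
open scoped MatrixGroups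

variable {Γ : Subgroup SL(2, ℤ)} {R : Type*} [CommRing R] {ε : Γ →* Rˣ}
  {A : Type*} [AddCommGroup A] [Module R A] {B : Type*} [AddCommGroup B] [Module R B]

/-- the setoid of double cosets `Γ \ G / ⟨V⟩`. -/
def dblSetoid (Γ : Subgroup SL(2, ℤ)) (V : SL(2, ℤ)) : Setoid SL(2, ℤ) where
  r x y := ∃ (γ : Γ) (k : ℤ), y = γ * x * V ^ k
  iseqv := by
    refine ⟨fun g => ⟨1, 0, by simp⟩, ?_, ?_⟩
    · rintro g g' ⟨γ, k, rfl⟩
      refine ⟨γ⁻¹, -k, ?_⟩
      simp [mul_assoc]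
    · rintro g g' g'' ⟨γ, k, rfl⟩ ⟨γ', k', rfl⟩
      refine ⟨γ' * γ, k + k', ?_⟩
      rw [zpow_add, Subgroup.coe_mul]
      simp only [mul_assoc]

/-- Twisted potentials. -/
theorem exists_potential (c : Z1 ε A) (V : SL(2, ℤ))
    (hV : ∀ (δ : SL(2, ℤ)) (k : ℤ) (h : δ * V ^ k * δ⁻¹ ∈ Γ),
      ε ⟨_, h⟩ = 1 ∧ c ⟨_, h⟩ = 0) :
    ∃ P : SL(2, ℤ) → A, (∀ (γ : Γ) x, P (γ * x) = (ε γ : R) • P x + c γ) ∧
      (∀ x, P (x * V) = P x) := by
  classical
  let s := dblSetoid Γ V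
  let rep : SL(2, ℤ) → SL(2, ℤ) := fun g => Quotient.out (Quotient.mk s g)
  have hrep : ∀ g, ∃ (γ : Γ) (k : ℤ), g = γ * rep g * V ^ k := fun g =>
    Quotient.mk_out (s := s) g
  choose γ k hk using hrep
  have huniq : ∀ (a : SL(2, ℤ)) (i j : ℤ) (α β : Γ), α * a * V ^ i = β * a * V ^ j →
      c α = c β := by
    intro a i j α β h
    have h1 : a * V ^ (j - i) * a⁻¹ = ((β⁻¹ * α : Γ) : SL(2, ℤ)) := by
      rw [Subgroup.coe_mul, Subgroup.coe_inv, zpow_sub]
      have h2 : (α : SL(2, ℤ)) = (β * a * V ^ j) * (V ^ i)⁻¹ * a⁻¹ := by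
        rw [← h]; group
      rw [h2]; group
    have hmem : a * V ^ (j - i) * a⁻¹ ∈ Γ := by rw [h1]; exact (β⁻¹ * α : Γ).2
    obtain ⟨h3, h3'⟩ := hV a (j - i) hmem
    have h4 : (⟨_, hmem⟩ : Γ) = β⁻¹ * α := Subtype.ext h1
    rw [h4] at h3'
    have h5 := Z1.apply_mul c β (β⁻¹ * α)
    rw [h3', smul_zero, add_zero, mul_inv_cancel_left] at h5
    exact h5
  have hrepeq : ∀ g g', s.r g g' → rep g = rep g' := by
    intro g g' h
    show Quotient.out (Quotient.mk s g) = Quotient.out (Quotient.mk s g')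
    rw [Quotient.sound h]
  refine ⟨fun g => c (γ g), ?_, ?_⟩
  · intro δ g
    have h1 : rep g = rep (δ * g) := hrepeq _ _ ⟨δ, 0, by simp⟩
    have h2 := hk (δ * g)
    have h3 : δ * g = ((δ * γ g : Γ) : SL(2, ℤ)) * rep g * V ^ (k g) := by
      conv_lhs => rw [hk g]
      rw [Subgroup.coe_mul]
      simp only [mul_assoc]
    rw [← h1] at h2
    have h4 := huniq (rep g) _ _ _ _ (h2.symm.trans h3)
    show c (γ (δ * g)) = _
    rw [h4, Z1.apply_mul, add_comm]
  · intro g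
    have h1 : rep g = rep (g * V) := hrepeq _ _ ⟨1, 1, by simp⟩
    have h2 := hk (g * V)
    have h3 : g * V = γ g * rep g * V ^ (k g + 1) := by
      conv_lhs => rw [hk g]
      simp only [zpow_add, zpow_one, mul_assoc]
    rw [← h1] at h2
    exact huniq (rep g) _ _ _ _ (h2.symm.trans h3)

/-- Equivariant functions lift along surjections. -/
theorem exists_equivariant_lift (ε : Γ →* Rˣ) (f : A →ₗ[R] B) (hf : Function.Surjective f)
    (w : SL(2, ℤ) → B) (hw : ∀ (γ : Γ) x, w (γ * x) = (ε γ : R) • w x) :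
    ∃ w0 : SL(2, ℤ) → A, (∀ (γ : Γ) x, w0 (γ * x) = (ε γ : R) • w0 x) ∧ ∀ x, f (w0 x) = w x := by
  classical
  let s := dblSetoid Γ 1
  let rep : SL(2, ℤ) → SL(2, ℤ) := fun g => Quotient.out (Quotient.mk s g)
  have hrep : ∀ g, ∃ (γ : Γ), g = γ * rep g := fun g => by
    obtain ⟨γ, k, h⟩ : s.r _ _ := Quotient.mk_out (s := s) g
    exact ⟨γ, by simpa using h⟩
  choose γ hk using hrep
  have hrepeq : ∀ g g', s.r g g' → rep g = rep g' := by
    intro g g' h
    show Quotient.out (Quotient.mk s g) = Quotient.out (Quotient.mk s g')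
    rw [Quotient.sound h]
  choose lift hlift using hf
  have key : ∀ x, w x = (ε (γ x) : R) • w (rep x) := by
    intro x
    conv_lhs => rw [hk x]
    rw [hw]
  refine ⟨fun x => (ε (γ x) : R) • lift (w (rep x)), ?_, ?_⟩
  · intro δ x
    have h1 : rep x = rep (δ * x) := hrepeq _ _ ⟨δ, 0, by simp⟩
    have h2 := hk (δ * x)
    have h3 : γ (δ * x) = δ * γ x := by
      apply Subtype.ext
      rw [Subgroup.coe_mul]
      rw [← h1] at h2
      have h4 : (δ : SL(2, ℤ)) * (γ x * rep x) = γ (δ * x) * rep x := by rw [← hk x]; exact h2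
      rw [← mul_assoc] at h4
      exact (mul_right_cancel h4).symm
    show (ε (γ (δ * x)) : R) • lift (w (rep (δ * x))) = _
    rw [← h1, h3, map_mul, Units.val_mul, mul_smul]
  · intro x
    rw [map_smul, hlift, ← key]

/-- `SL(2, ℤ)` acting on itself by inverse right translations. -/
structure RX : Type where
  /-- the underlying matrix -/
  val : SL(2, ℤ)

instance : MulAction SL(2, ℤ) RX where
  smul g x := ⟨x.val * g⁻¹⟩
  one_smul x := by
    show (⟨x.val * 1⁻¹⟩ : RX) = x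
    rw [inv_one, mul_one]
  mul_smul g h x := by
    show (⟨x.val * (g * h)⁻¹⟩ : RX) = ⟨(x.val * h⁻¹) * g⁻¹⟩
    rw [mul_inv_rev, mul_assoc]

theorem RX_smul (g x : SL(2, ℤ)) : g • (⟨x⟩ : RX) = ⟨x * g⁻¹⟩ := rfl

/-- naturality of the universal cocycle -/
theorem C4_map {X : Type*} [MulAction SL(2, ℤ) X] (f : A →ₗ[R] B) (w : X → A) (g : SL(2, ℤ)) (x : X) :
    f (C4 w g x) = C4 (fun x => f (w x)) g x := by
  rw [C4, C4]
  have := AddMonoidHom.map_finsum (f : A →+ B) (C4_support w g x)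
  refine this.trans ?_
  apply finsum_congr
  intro h
  exact map_zsmul f _ _

theorem C4_equivariant (w : SL(2, ℤ) → A) (hw : ∀ (γ : Γ) (x : SL(2, ℤ)),
    w (γ * x) = (ε γ : R) • w x) (γ : Γ) (g x : SL(2, ℤ)) :
    C4 (fun y : RX => w y.val) g ⟨γ * x⟩ = (ε γ : R) • C4 (fun y : RX => w y.val) g ⟨x⟩ := by
  unfold C4
  have h := AddMonoidHom.map_finsum (DistribSMul.toAddMonoidHom A (ε γ : R))
    (C4_support (fun y : RX => w y.val) g ⟨x⟩)
  refine Eq.trans ?_ h.symm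
  apply finsum_congr
  intro h
  show dchi g h • w ((γ * x) * h⁻¹) = (ε γ : R) • (dchi g h • w (x * h⁻¹))
  rw [mul_assoc, hw, smul_comm]

theorem U_cube : ((T * S) ^ (3 : ℤ) : SL(2, ℤ)) = -1 := by
  apply Subtype.ext
  rw [show (3 : ℤ) = ((3 : ℕ) : ℤ) from rfl, zpow_natCast]
  simp only [pow_succ, pow_zero, one_mul, Matrix.SpecialLinearGroup.coe_mul, coe_S, coe_T,
    Matrix.SpecialLinearGroup.coe_neg, Matrix.SpecialLinearGroup.coe_one]
  decide

/-- `c (-1) = 0` -/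
theorem Z1_neg_one (hneg : -1 ∈ Γ) (hε : ε ⟨-1, hneg⟩ = 1) (h2 : IsUnit (2 : R)) (c : Z1 ε A) :
    c ⟨-1, hneg⟩ = 0 := by
  have h := Z1.apply_mul c ⟨-1, hneg⟩ ⟨-1, hneg⟩
  have h1 : (⟨-1, hneg⟩ * ⟨-1, hneg⟩ : Γ) = 1 := by
    apply Subtype.ext
    simp
  rw [h1, Z1.apply_one, hε, Units.val_one, one_smul, ← two_smul R] at h
  exact (h2.smul_eq_zero).mp h.symm

/-- The main lemma: existence of potentials invariant under `T * S`. -/
theorem exists_potential_TS (hneg : -1 ∈ Γ) (hε : ε ⟨-1, hneg⟩ = 1) (h2 : IsUnit (2 : R))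
    (h3 : IsUnit (3 : R) ∨ ∀ x : SL(2, ℤ), x * (T * S) * x⁻¹ ∉ Γ) (c : Z1 ε A) :
    ∃ P : SL(2, ℤ) → A, (∀ (γ : Γ) x, P (γ * x) = (ε γ : R) • P x + c γ) ∧
      (∀ x, P (x * (T * S)) = P x) := by
  have hc1 := Z1_neg_one hneg hε h2 c
  have hnegx : ∀ (P : SL(2, ℤ) → A), (∀ (γ : Γ) x, P (γ * x) = (ε γ : R) • P x + c γ) →
      ∀ x, P (-x) = P x := by
    intro P hP x
    have := hP ⟨-1, hneg⟩ x
    rw [hε, hc1, Units.val_one, one_smul, add_zero] at this
    simpa using this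
  rcases h3 with h3 | h3
  · obtain ⟨P, hP, -⟩ := exists_potential c 1 (fun δ k h => by
      have : (⟨δ * 1 ^ k * δ⁻¹, h⟩ : Γ) = 1 := by
        apply Subtype.ext; simp
      rw [this]
      simp)
    obtain ⟨u, hu⟩ := h3
    refine ⟨fun x => ((u⁻¹ : Rˣ) : R) • (P x + P (x * (T * S)) + P (x * (T * S) * (T * S))), ?_, ?_⟩
    · intro γ x
      simp only [mul_assoc, hP]
      have h4 : c γ = ((u⁻¹ : Rˣ) : R) • (c γ + c γ + c γ) := by
        have : c γ + c γ + c γ = (u : R) • c γ := by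
          rw [hu, show (3 : R) = 1 + 1 + 1 by norm_num, add_smul, add_smul, one_smul]
        rw [this, smul_smul, Units.inv_mul, one_smul]
      conv_rhs => rw [h4]
      rw [smul_comm, ← smul_add]
      congr 1
      simp only [smul_add]
      abel
    · intro x
      have h4 : x * (T * S) * (T * S) * (T * S) = -x := by
        have h5 := U_cube
        rw [show (3 : ℤ) = ((3 : ℕ) : ℤ) from rfl, zpow_natCast, pow_succ, pow_succ, pow_one] at h5
        rw [mul_assoc, mul_assoc, ← mul_assoc (T * S), h5, mul_neg, mul_one]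
      show _ • _ = _ • _
      rw [h4, hnegx P hP]
      congr 1
      abel
  · refine exists_potential c (T * S) fun δ k h => ?_
    have h6 : ∀ m : ℤ, δ * (T * S) ^ (3 * m) * δ⁻¹ = 1 ∨ δ * (T * S) ^ (3 * m) * δ⁻¹ = -1 := by
      intro m
      rw [zpow_mul, U_cube]
      rcases Int.even_or_odd m with hm | hm
      · left
        rw [Even.neg_one_zpow hm]; simp
      · right
        rw [Odd.neg_one_zpow hm]; simp
    have h7 : ∃ m, k = 3 * m := by
      by_contra hcon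
      have h8 : k % 3 = 1 ∨ k % 3 = 2 := by
        have h9 : k % 3 ≠ 0 := fun h9 => hcon ⟨k / 3, by omega⟩
        omega
      -- get `δ U δ⁻¹ ∈ Γ`
      have h10 : ∀ m : ℤ, δ * (T * S) ^ (3 * m) * δ⁻¹ ∈ Γ := by
        intro m
        rcases h6 m with h | h <;> rw [h]
        · exact one_mem _
        · exact hneg
      rcases h8 with h8 | h8
      · have h11 := mul_mem (h10 (-(k / 3))) h
        apply h3 δ
        have h12 : δ * (T * S) ^ (3 * -(k / 3)) * δ⁻¹ * (δ * (T * S) ^ k * δ⁻¹) =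
            δ * (T * S) * δ⁻¹ := by
          have : (T * S : SL(2, ℤ)) = (T * S) ^ (3 * -(k / 3) + k) := by
            rw [show 3 * -(k / 3) + k = 1 by omega, zpow_one]
          conv_rhs => rw [this, zpow_add]
          group
        rwa [h12] at h11
      · have h11 := mul_mem (h10 (2 * -(k / 3) - 1)) (mul_mem h h)
        apply h3 δ
        have h12 : δ * (T * S) ^ (3 * (2 * -(k / 3) - 1)) * δ⁻¹ *
            (δ * (T * S) ^ k * δ⁻¹ * (δ * (T * S) ^ k * δ⁻¹)) = δ * (T * S) * δ⁻¹ := by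
          have : (T * S : SL(2, ℤ)) = (T * S) ^ (3 * (2 * -(k / 3) - 1) + k + k) := by
            rw [show 3 * (2 * -(k / 3) - 1) + k + k = 1 by omega, zpow_one]
          conv_rhs => rw [this, zpow_add, zpow_add]
          group
        rwa [h12] at h11
    obtain ⟨m, rfl⟩ := h7
    rcases h6 m with h8 | h8
    · have : (⟨δ * (T * S) ^ (3 * m) * δ⁻¹, h⟩ : Γ) = 1 := Subtype.ext h8
      rw [this]; simp
    · have : (⟨δ * (T * S) ^ (3 * m) * δ⁻¹, h⟩ : Γ) = ⟨-1, hneg⟩ := Subtype.ext h8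
      rw [this]
      exact ⟨hε, hc1⟩

/-- **Crossed homomorphisms lift along surjections.** -/
theorem Z1_map_surjective (hneg : -1 ∈ Γ) (hε : ε ⟨-1, hneg⟩ = 1) (h2 : IsUnit (2 : R))
    (h3 : IsUnit (3 : R) ∨ ∀ x : SL(2, ℤ), x * (T * S) * x⁻¹ ∉ Γ)
    (f : A →ₗ[R] B) (hf : Function.Surjective f) : Function.Surjective (Z1.map ε f) := by
  intro c
  have hc1 := Z1_neg_one hneg hε h2 c
  obtain ⟨P, hP, hPU⟩ := exists_potential_TS hneg hε h2 h3 c
  have hPneg : ∀ x, P (-x) = P x := by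
    intro x
    have := hP ⟨-1, hneg⟩ x
    rw [hε, hc1, Units.val_one, one_smul, add_zero] at this
    simpa using this
  -- the edge function
  let w : SL(2, ℤ) → B := fun x => P (x * S) - P x
  have hw : ∀ (γ : Γ) x, w (γ * x) = (ε γ : R) • w x := by
    intro γ x
    simp only [w, mul_assoc, hP, smul_sub]
    abel
  obtain ⟨w0, hw0, hfw0⟩ := exists_equivariant_lift ε f hf w hw
  have hw0neg : ∀ x, w0 (-x) = w0 x := by
    intro x
    have := hw0 ⟨-1, hneg⟩ x
    rw [hε, Units.val_one, one_smul] at this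
    simpa using this
  obtain ⟨u, hu⟩ := h2
  -- antisymmetrise
  let w1 : SL(2, ℤ) → A := fun x => ((u⁻¹ : Rˣ) : R) • (w0 x - w0 (x * S))
  have hw1 : ∀ (γ : Γ) x, w1 (γ * x) = (ε γ : R) • w1 x := by
    intro γ x
    simp only [w1, mul_assoc, hw0]
    rw [← smul_sub, smul_comm]
  have hSS : ∀ x : SL(2, ℤ), x * S * S = -x := fun x => by
    rw [mul_assoc, Fermat.Agent.S16.Farey.S_mul_S, mul_neg, mul_one]
  have hw1S : ∀ x, w1 (x * S) = - w1 x := by
    intro x
    simp only [w1, hSS, hw0neg]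
    rw [← smul_neg, neg_sub]
  have hw1neg : ∀ x, w1 (-x) = w1 x := by
    intro x
    simp only [w1, neg_mul, hw0neg]
  have hfw1 : ∀ x, f (w1 x) = w x := by
    intro x
    simp only [w1, map_smul, map_sub, hfw0, w, hSS, hPneg]
    rw [show P (x * S) - P x - (P x - P (x * S)) = (u : R) • (P (x * S) - P x) by
      rw [hu, two_smul]; abel, smul_smul, Units.inv_mul, one_smul]
  have hw1S' : ∀ y : RX, (fun y : RX => w1 y.val) ((S : SL(2, ℤ)) • y) =
      - (fun y : RX => w1 y.val) y := by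
    rintro ⟨x⟩
    rw [RX_smul]
    show w1 (x * S⁻¹) = - w1 x
    rw [Fermat.Agent.S16.Farey.S_inv, mul_neg, hw1neg, hw1S]
  -- the cocycle
  let C : SL(2, ℤ) → RX → A := fun g y =>
    (-(((u⁻¹ : Rˣ) : R) * ((u⁻¹ : Rˣ) : R))) • C4 (fun y : RX => w1 y.val) g y
  have hC : ∀ g h y, C (g * h) y = C g (h • y) + C h y := by
    intro g h y
    simp only [C, C4_mul, smul_add]
  have hCU : ∀ y, C (T * S) y = 0 := by
    intro y
    simp only [C, C4_TS, smul_zero]
  have hCS : ∀ y, C S y = w1 y.val := by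
    intro y
    simp only [C]
    rw [C4_S hw1S']
    have h4 : (-4 : ℤ) • w1 y.val = (-((u : R) * u)) • w1 y.val := by
      rw [hu, ← Int.cast_smul_eq_zsmul R]
      congr 1
      push_cast
      norm_num
    rw [h4, smul_smul]
    have : -(((u⁻¹ : Rˣ) : R) * ((u⁻¹ : Rˣ) : R)) * -((u : R) * u) = 1 := by
      rw [neg_mul_neg]
      have h5 := Units.inv_mul u
      calc _ = ((u⁻¹ : Rˣ) : R) * u * (((u⁻¹ : Rˣ) : R) * u) := by ring
        _ = 1 := by rw [h5, mul_one]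
    rw [this, one_smul]
  have hCγ : ∀ (γ : Γ) (g x : SL(2, ℤ)), C g ⟨γ * x⟩ = (ε γ : R) • C g ⟨x⟩ := by
    intro γ g x
    simp only [C]
    rw [C4_equivariant w1 hw1, smul_comm]
  obtain ⟨a0, ha0⟩ := hf (P 1)
  let Q : SL(2, ℤ) → A := fun x => a0 + C x⁻¹ ⟨1⟩
  have hQ : ∀ g x : SL(2, ℤ), Q (x * g⁻¹) = Q x + C g ⟨x⟩ := by
    intro g x
    simp only [Q]
    rw [mul_inv_rev, inv_inv, hC, RX_smul, inv_inv, one_mul]
    abel
  have hD : ∀ (γ : Γ) (x : SL(2, ℤ)), Q (γ * x) - (ε γ : R) • Q x = Q γ - (ε γ : R) • Q 1 := by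
    intro γ x
    have h4 := hQ x⁻¹ (γ : SL(2, ℤ))
    have h5 := hQ x⁻¹ 1
    rw [inv_inv] at h4 h5
    rw [one_mul] at h5
    rw [h4, h5]
    have h6 := hCγ γ x⁻¹ 1
    rw [mul_one] at h6
    rw [h6, smul_add]
    abel
  have hQγ : ∀ (γ : Γ) (x : SL(2, ℤ)), Q (γ * x) = (ε γ : R) • Q x + (Q γ - (ε γ : R) • Q 1) := by
    intro γ x
    rw [← hD γ x]
    abel
  refine ⟨⟨fun γ => Q γ - (ε γ : R) • Q 1, fun γ δ => ?_⟩, ?_⟩
  · show Q (γ * δ : Γ) - (ε (γ * δ) : R) • Q 1 =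
      (Q γ - (ε γ : R) • Q 1) + (ε γ : R) • (Q δ - (ε δ : R) • Q 1)
    rw [Subgroup.coe_mul, hQγ γ δ, map_mul, Units.val_mul, mul_smul, smul_sub]
    abel
  · -- `f ∘ Q = P`
    have hPC : ∀ g (y : RX), P (y.val * g⁻¹) - P y.val = f (C g y) := by
      refine cocycle_ext (c := fun g (y : RX) => P (y.val * g⁻¹) - P y.val)
        (c' := fun g y => f (C g y)) ?_ ?_ ?_ ?_
      · rintro g h ⟨x⟩
        rw [RX_smul]
        show P (x * (g * h)⁻¹) - P x = (P (x * h⁻¹ * g⁻¹) - P (x * h⁻¹)) + (P (x * h⁻¹) - P x)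
        rw [mul_inv_rev, mul_assoc]
        abel
      · intro g h y
        rw [hC, map_add]
      · rintro ⟨x⟩
        show P (x * S⁻¹) - P x = f (C S ⟨x⟩)
        rw [hCS, hfw1, Fermat.Agent.S16.Farey.S_inv, mul_neg, hPneg]
      · rintro ⟨x⟩
        show P (x * (T * S)⁻¹) - P x = f (C (T * S) ⟨x⟩)
        rw [hCU, map_zero, sub_eq_zero]
        have := hPU (x * (T * S)⁻¹)
        rw [inv_mul_cancel_right] at this
        exact this.symm
    have hfQ : ∀ x, f (Q x) = P x := by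
      intro x
      have h4 := hPC x⁻¹ ⟨1⟩
      simp only [inv_inv, one_mul] at h4
      simp only [Q]
      rw [map_add, ha0, ← h4]
      abel
    ext γ
    show f (Q γ - (ε γ : R) • Q 1) = c γ
    rw [map_sub, map_smul, hfQ, hfQ]
    have := hP γ 1
    rw [mul_one] at this
    rw [this]
    abel

/-- Surjectivity on cohomology. -/
theorem H1_map_surjective (hneg : -1 ∈ Γ) (hε : ε ⟨-1, hneg⟩ = 1) (h2 : IsUnit (2 : R))
    (h3 : IsUnit (3 : R) ∨ ∀ x : SL(2, ℤ), x * (T * S) * x⁻¹ ∉ Γ)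
    (f : A →ₗ[R] B) (hf : Function.Surjective f) : Function.Surjective (H1.map ε f) := by
  intro y
  induction y using H1.ind with
  | h c =>
    obtain ⟨d, rfl⟩ := Z1_map_surjective hneg hε h2 h3 f hf c
    exact ⟨H1.mk d, H1.map_mk f d⟩

end Fermat.Agent.TwExact
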