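import Mathlib
import Fermat.Agent.TwHecke.Hecke
import Fermat.Agent.TwExact.MPart
import Fermat.Agent.TwExact.Surj

/-!
# Exactness of the `𝔪`-part of the twisted cohomology of `Γ₀(M)`
-/

set_option autoImplicit false

noncomputable section

namespace Fermat.Agent.TwExact

open Matrix.SpecialLinearGroup CongruenceSubgroup IsLocalRing
open scoped MatrixGroups
open TwHecke

section Finite

variable {Γ : Type*} [Group Γ] {R : Type*} [CommRing R] (ε : Γ →* Rˣ)
variable (A : Type*) [AddCommGroup A] [Module R A]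

/-- A cocycle vanishing on a generating set vanishes. -/
theorem Z1_eq_zero_of_closure {s : Set Γ} (hs : Subgroup.closure s = ⊤) {c : Z1 ε A}
    (h : ∀ g ∈ s, c g = 0) : c = 0 := by
  ext g
  have hg : g ∈ Subgroup.closure s := by rw [hs]; exact Subgroup.mem_top g
  induction hg using Subgroup.closure_induction with
  | mem x hx => exact h x hx
  | one => exact Z1.apply_one c
  | mul x y _ _ hx hy =>
    rw [Z1.apply_mul, hx, hy]
    simp
  | inv x _ hx =>
    rw [Z1.apply_inv, hx]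
    simp

/-- The cocycles of a finitely generated group with values in a finitely generated module over a
noetherian ring form a finitely generated module. -/
theorem finite_Z1 [Group.FG Γ] [IsNoetherianRing R] [Module.Finite R A] :
    Module.Finite R (Z1 ε A) := by
  obtain ⟨s, hs, hfin⟩ := Group.fg_iff.mp (inferInstance : Group.FG Γ)
  have : Finite s := hfin
  let g : Z1 ε A →ₗ[R] (s → A) :=
    { toFun := fun c x => c x.1
      map_add' := fun c d => rfl
      map_smul' := fun r c => rfl }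
  refine Module.Finite.of_injective g ?_
  rw [← LinearMap.ker_eq_bot, LinearMap.ker_eq_bot']
  intro c hc
  exact Z1_eq_zero_of_closure ε A hs (fun x hx => congrFun hc ⟨x, hx⟩)

theorem finite_H1 [Group.FG Γ] [IsNoetherianRing R] [Module.Finite R A] :
    Module.Finite R (H1 ε A) := by
  have := finite_Z1 ε A
  infer_instance

end Finite

theorem fg_SL2Z : Group.FG SL(2, ℤ) :=
  Group.fg_iff.mpr ⟨{ModularGroup.S, ModularGroup.T},
    _root_.SpecialLinearGroup.SL2Z_generators, Set.toFinite _⟩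

theorem fg_Gamma0 (M : ℕ) [NeZero M] : Group.FG (Gamma0 M) := by
  have := fg_SL2Z
  infer_instance

section MiddleExact

variable {Γ : Type*} [Group Γ] {R : Type*} [CommRing R] (ε : Γ →* Rˣ)
variable {A B C : Type*} [AddCommGroup A] [Module R A] [AddCommGroup B] [Module R B]
  [AddCommGroup C] [Module R C]

/-- Middle exactness of `H¹`. -/
theorem H1_exact (i : A →ₗ[R] B) (p : B →ₗ[R] C) (hi : Function.Injective i)
    (hp : Function.Surjective p) (hex : LinearMap.range i = LinearMap.ker p) {x : H1 ε B}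
    (hx : H1.map ε p x = 0) : x ∈ LinearMap.range (H1.map ε i) := by
  induction x using H1.ind with
  | h c =>
    rw [H1.map_mk, H1.mk_eq_zero] at hx
    obtain ⟨c0, hc0⟩ := hx
    obtain ⟨b, rfl⟩ := hp c0
    have h1 : ∀ g, (c - cobd ε B b) g ∈ LinearMap.range i := by
      intro g
      rw [hex, LinearMap.mem_ker, Z1.sub_apply, map_sub, cobd_apply, map_sub, map_smul]
      have := congrArg (fun z : Z1 ε C => z g) hc0
      simp only [cobd_apply, Z1.map_apply] at this
      rw [← this, sub_self]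
    choose d hd using h1
    have hd' : d ∈ Z1 ε A := by
      intro g h
      apply hi
      rw [map_add, map_smul, hd, hd, hd]
      exact (c - cobd ε B b).2 g h
    refine ⟨H1.mk ⟨d, hd'⟩, ?_⟩
    rw [H1.map_mk, H1.mk_eq_mk]
    refine ⟨-b, ?_⟩
    ext g
    have h2 : i (d g) = c g - cobd ε B b g := hd g
    rw [map_neg, Z1.neg_apply, Z1.sub_apply, Z1.map_apply]
    show _ = i (d g) - c g
    rw [h2]
    abel

theorem H1_map_map_zero (i : A →ₗ[R] B) (p : B →ₗ[R] C) (h : p ∘ₗ i = 0) (x : H1 ε A) :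
    H1.map ε p (H1.map ε i x) = 0 := by
  induction x using H1.ind with
  | h c =>
    rw [H1.map_mk, H1.map_mk]
    have : Z1.map ε p (Z1.map ε i c) = 0 := by
      ext g
      exact congrArg (fun f : A →ₗ[R] C => f (c g)) h
    rw [this, H1.mk_zero]

theorem H1_map_add (e : Γ →* Rˣ) (f g : A →ₗ[R] B) (x : H1 e A) :
    H1.map e (f + g) x = H1.map e f x + H1.map e g x := by
  induction x using H1.ind with
  | h c => rfl

theorem H1_map_smul (e : Γ →* Rˣ) (r : R) (f : A →ₗ[R] B) (x : H1 e A) :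
    H1.map e (r • f) x = r • H1.map e f x := by
  induction x using H1.ind with
  | h c => rfl

theorem H1_map_id (e : Γ →* Rˣ) (x : H1 e A) :
    H1.map e (LinearMap.id : A →ₗ[R] A) x = x := by
  rw [H1.map_id]
  rfl

end MiddleExact

/-! ### The `𝔪`-part -/

/-- Index set of the anemic Hecke algebra away from `S`. -/
abbrev PIdx (S : Set ℕ) : Type := {ℓ : Nat.Primes // (ℓ : ℕ) ∉ S}

section Hm

variable (M : ℕ) {R : Type} [CommRing R] (ε : (ZMod M)ˣ →* Rˣ) (A : Type) [AddCommGroup A]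
  [Module R A] (S : Set ℕ)

/-- The Hecke operators away from `S`. -/
def hop : PIdx S → Module.End R (HM M ε A) := fun ℓ => heckeP M ε A ℓ.1

theorem hop_commute (i j : PIdx S) : Commute (hop M ε A S i) (hop M ε A S j) :=
  heckeP_commute M ε A i.1 j.1

variable {A} in
theorem hop_map {B : Type} [AddCommGroup B] [Module R B] (f : A →ₗ[R] B) (i : PIdx S)
    (x : HM M ε A) : H1.map _ f (hop M ε A S i x) = hop M ε B S i (H1.map _ f x) :=
  (heckeP_map M ε i.1 f x).symm

variable [IsLocalRing R] (θ : PIdx S → ResidueField R)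

/-- The `𝔪`-part of `H¹(Γ₀(M), A(ε))`. -/
def Hm : Submodule R (HM M ε A) := mpart θ (hop M ε A S) (hop_commute M ε A S)

/-- The non-Eisenstein condition (weak form). -/
def NonEis : Prop := ∃ ℓ : PIdx S, ¬ (ℓ.1 : ℕ) ∣ M ∧
  θ ℓ ≠ residue R (((ℓ.1 : ℕ) : R) + wt ε (unitOf M (ℓ.1 : ℕ)))

section Functor

variable {A} {B C : Type} [AddCommGroup B] [Module R B] [AddCommGroup C] [Module R C]

theorem map_mem_Hm (f : A →ₗ[R] B) {x : HM M ε A} (hx : x ∈ Hm M ε A S θ) :
    H1.map _ f x ∈ Hm M ε B S θ :=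
  map_mem_mpart _ _ (H1.map _ f) (fun i x => hop_map M ε S f i x) hx

/-- Functoriality of the `𝔪`-part. -/
def HmMap (f : A →ₗ[R] B) : Hm M ε A S θ →ₗ[R] Hm M ε B S θ :=
  (H1.map (chr M ε) f).restrict fun _ hx => map_mem_Hm M ε S θ f hx

@[simp] theorem coe_HmMap (f : A →ₗ[R] B) (x : Hm M ε A S θ) :
    (HmMap M ε S θ f x : HM M ε B) = H1.map _ f (x : HM M ε A) := rfl

theorem HmMap_comp (f : A →ₗ[R] B) (g : B →ₗ[R] C) (x : Hm M ε A S θ) :
    HmMap M ε S θ (g ∘ₗ f) x = HmMap M ε S θ g (HmMap M ε S θ f x) := by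
  apply Subtype.ext
  rw [coe_HmMap, coe_HmMap, coe_HmMap, H1.map_comp]
  rfl

theorem HmMap_add (f g : A →ₗ[R] B) (x : Hm M ε A S θ) :
    HmMap M ε S θ (f + g) x = HmMap M ε S θ f x + HmMap M ε S θ g x :=
  Subtype.ext (H1_map_add _ f g _)

theorem HmMap_smul (r : R) (f : A →ₗ[R] B) (x : Hm M ε A S θ) :
    HmMap M ε S θ (r • f) x = r • HmMap M ε S θ f x :=
  Subtype.ext (H1_map_smul _ r f _)

theorem HmMap_id (x : Hm M ε A S θ) : HmMap M ε S θ (LinearMap.id : A →ₗ[R] A) x = x :=
  Subtype.ext (H1_map_id _ _)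

variable {M ε S θ}

variable [NeZero M] [IsNoetherianRing R] [IsAdicComplete (maximalIdeal R) R]

theorem exists_isIdem_Hm (A : Type) [AddCommGroup A] [Module R A] [Module.Finite R A]
    (ε : (ZMod M)ˣ →* Rˣ) (θ : PIdx S → ResidueField R) :
    ∃ e : MvPolynomial (PIdx S) R, IsIdem θ (hop M ε A S) (hop_commute M ε A S) e := by
  have := fg_Gamma0 M
  have : Module.Finite R (HM M ε A) := finite_H1 _ _
  exact exists_isIdem _ R

omit [IsAdicComplete (maximalIdeal R) R] in
theorem finite_Hm (A : Type) [AddCommGroup A] [Module R A] [Module.Finite R A]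
    (ε : (ZMod M)ˣ →* Rˣ) (θ : PIdx S → ResidueField R) : Module.Finite R (Hm M ε A S θ) := by
  have := fg_Gamma0 M
  have : Module.Finite R (HM M ε A) := finite_H1 _ _
  have : IsNoetherian R (HM M ε A) := isNoetherian_of_isNoetherianRing_of_finite R _
  exact Module.IsNoetherian.finite R _

/-- **Left exactness** (non-Eisenstein). The target is arbitrary. -/
theorem HmMap_injective [Module.Finite R A] (hne : NonEis M ε S θ) (f : A →ₗ[R] B)
    (hf : Function.Injective f) {x : HM M ε A} (hx : x ∈ Hm M ε A S θ)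
    (h : H1.map _ f x = 0) : x = 0 := by
  obtain ⟨e, he⟩ := exists_isIdem_Hm A ε θ
  obtain ⟨ℓ, hℓM, hℓ⟩ := hne
  have hprime : Fact (ℓ.1 : ℕ).Prime := ⟨ℓ.1.2⟩
  refine he.eq_zero_of_eigen hx hℓ ?_
  induction x using H1.ind with
  | h c =>
    rw [H1.map_mk, H1.mk_eq_zero] at h
    obtain ⟨b, hb⟩ := h
    have h1 := heckeZ_of_map_eq_cobd M (ℓ.1 : ℕ) ε f hf hb.symm
    rw [hdeg_of_not_dvd _ _ _ hℓM] at h1
    show heckeH M (ℓ.1 : ℕ) ε A (H1.mk c) = _
    rw [heckeH_mk, h1, H1.mk_smul]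

/-- **Right exactness.** -/
theorem HmMap_surjective [Module.Finite R A] (hε : ε (-1) = 1) (h2 : IsUnit (2 : R))
    (h3 : IsUnit (3 : R) ∨ ∀ x : SL(2, ℤ),
      x * (ModularGroup.T * ModularGroup.S) * x⁻¹ ∉ Gamma0 M)
    (f : A →ₗ[R] B) (hf : Function.Surjective f) : Function.Surjective (HmMap M ε S θ f) := by
  obtain ⟨e, he⟩ := exists_isIdem_Hm A ε θ
  rintro ⟨y, hy⟩
  have hneg : (-1 : SL(2, ℤ)) ∈ Gamma0 M := by
    rw [Gamma0_mem]
    simp
  have hε' : chr M ε ⟨-1, hneg⟩ = 1 := by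
    show ε (aMap M ⟨-1, hneg⟩) = 1
    rw [← hε]
    congr 1
    apply Units.ext
    rw [val_aMap]
    simp
  have hsurj := H1_map_surjective hneg hε' h2 h3 f hf
  obtain ⟨x, hx, hxy⟩ := he.exists_lift (hop_commute M ε B S) (H1.map _ f)
    (fun i x => hop_map M ε S f i x) hsurj hy
  exact ⟨⟨x, hx⟩, Subtype.ext hxy⟩

/-- **Middle exactness.** -/
theorem HmMap_exact [Module.Finite R A] [Module.Finite R B] (i : A →ₗ[R] B) (p : B →ₗ[R] C)
    (hi : Function.Injective i) (hp : Function.Surjective p)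
    (hex : LinearMap.range i = LinearMap.ker p) :
    LinearMap.range (HmMap M ε S θ i) = LinearMap.ker (HmMap M ε S θ p) := by
  obtain ⟨eA, heA⟩ := exists_isIdem_Hm A ε θ
  obtain ⟨eB, heB⟩ := exists_isIdem_Hm B ε θ
  apply le_antisymm
  · rintro _ ⟨x, rfl⟩
    rw [LinearMap.mem_ker, ← HmMap_comp]
    have : p ∘ₗ i = 0 := by
      ext a
      have : i a ∈ LinearMap.range i := ⟨a, rfl⟩
      rw [hex] at this
      exact this
    rw [this]
    apply Subtype.ext
    rw [coe_HmMap]
    have h0 := H1_map_smul (A := A) (B := C) (chr M ε) (0 : R) 0 (x : HM M ε A)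
    rw [zero_smul, zero_smul] at h0
    exact h0
  · rintro ⟨x, hx⟩ hxp
    have h1 : H1.map _ p x = 0 := congrArg Subtype.val hxp
    have h2 := H1_exact _ i p hi hp hex h1
    obtain ⟨z, hz, hzx⟩ := heB.exists_of_exact (hop_commute M ε A S) heA (H1.map _ i)
      (fun j x => hop_map M ε S i j x) hx h2
    exact ⟨⟨z, hz⟩, Subtype.ext hzx⟩

end Functor

end Hm

end Fermat.Agent.TwExact
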